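import Fermat.Agent.ModularityLifting.Points.Coeff
import Fermat.Agent.ModularityLifting.Start.Coeff
import Mathlib.RingTheory.RootsOfUnity.AlgebraicallyClosed

/-!
# Coefficients with enough roots of unity

`exists_rootCoefficients`: a complete discrete valuation ring over the unramified quadratic
extension of `ℤ_p` with finite residue field and a primitive `p ^ V`-th root of unity.  These are
the coefficients of the setup built in `LevelLowering.Outer.Main`.
-/

set_option autoImplicit false

noncomputable section

open IsLocalRing

namespace FLTAgent.LevelLowering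

open FLTAgent.ModularityLifting FLTAgent.HeckePoints

/-- A complete discrete valuation ring over the unramified quadratic extension of `ℤ_p` with a
primitive `p ^ V`-th root of unity. -/
theorem exists_rootCoefficients (p : ℕ) [Fact p.Prime] (V : ℕ) :
    ∃ (O : Type) (_ : CommRing O) (_ : IsDomain O) (_ : IsDiscreteValuationRing O)
      (_ : IsAdicComplete (maximalIdeal O) O) (_ : Finite (ResidueField O)) (_ : CharZero O)
      (_ : CharP (ResidueField O) p) (_ι : ResidueField (Start.Coeff p) →+* ResidueField O),
      ∃ ζ : O, IsPrimitiveRoot ζ (p ^ V) := by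
  have : CharZero (FractionRing (Start.Coeff p)) :=
    charZero_of_injective_ringHom (IsFractionRing.injective (Start.Coeff p) _)
  have : CharZero (Kbar (Start.Coeff p)) :=
    charZero_of_injective_ringHom (algebraMap (FractionRing (Start.Coeff p)) _).injective
  have hn : p ^ V ≠ 0 := pow_ne_zero _ (Fact.out : p.Prime).ne_zero
  have : NeZero (p ^ V) := ⟨hn⟩
  have : NeZero ((p ^ V : ℕ) : Kbar (Start.Coeff p)) := ⟨Nat.cast_ne_zero.mpr hn⟩
  obtain ⟨z, hz⟩ := HasEnoughRootsOfUnity.exists_primitiveRoot (Kbar (Start.Coeff p)) (p ^ V)
  obtain ⟨C, _, _, _, _, _, _, _, _, _, _, j, hj, -, hs⟩ := exists_coeff (Start.Coeff p) {z}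
    (Set.finite_singleton z) fun w hw => by
      rw [Set.mem_singleton_iff] at hw
      subst hw
      exact IsIntegral.of_pow (Nat.pos_of_ne_zero hn) (by rw [hz.pow_eq_one]; exact isIntegral_one)
  obtain ⟨ζ, hζ⟩ := hs (Set.mem_singleton z)
  let ι : ResidueField (Start.Coeff p) →+* ResidueField C :=
    ResidueField.map (algebraMap (Start.Coeff p) C)
  exact ⟨C, inferInstance, inferInstance, inferInstance, inferInstance, inferInstance,
    inferInstance, charP_of_injective_ringHom ι.injective p, ι, ζ,
    IsPrimitiveRoot.of_map_of_injective (f := j) (hζ ▸ hz) hj⟩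

end FLTAgent.LevelLowering
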