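import Fermat.Agent.LevelLowering.Level.PointTrace
import Fermat.Agent.ModularityLifting.Engine.NormalRep
import Fermat.Agent.ModularityLifting.Start.Main

/-!
# The normalised residual representation of a curve

`exists_curveResidual`: the `p`-torsion of a semistable curve with irreducible representation,
over an extension of the field with `p²` elements, conjugated to normalised form and packaged as
`CurveResidual`.  Used to build setups and in Mazur's principle.
-/

set_option autoImplicit false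

noncomputable section

open IsLocalRing Matrix WeierstrassCurve

namespace FLTAgent.LevelLowering

open FLTAgent.Density (GalQ Qbar)
open FLTAgent.DefRing FLTAgent.GaloisAttach FLTAgent.ModularityLifting

/-- An irreducible odd representation is conjugate to a normalised one. -/
theorem exists_residualRep_conj {p : ℕ} {k : Type} [Field k] (h2 : (2 : k) ≠ 0) (ρ : MatRep k)
    (hfin : ∃ L : IntermediateField ℚ Qbar, FiniteDimensional ℚ L ∧
      ∀ σ : GalQ, (∀ x ∈ L, σ x = x) → ρ σ = 1)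
    (hdet : DetCyclotomic ρ p) (hirr : AbsIrreducibleOn ρ ⊤)
    (htr : (ρ complexConjugation).trace = 0) (hd : (ρ complexConjugation).det = -1) :
    ∃ (R : ResidualRep p k) (g : GL (Fin 2) k), R.rep = Engine.conjRep g ρ := by
  obtain ⟨g₁, hg₁⟩ := Engine.exists_diagonalize (isUnit_iff_ne_zero.mpr h2) _ htr hd
  have hirr₁ : ∀ v : Fin 2 → k, (∀ σ, ∃ c : k, Engine.conjRep g₁ ρ σ *ᵥ v = c • v) → v = 0 := by
    intro v hv
    have h : ((g₁⁻¹ : GL (Fin 2) k) : Matrix (Fin 2) (Fin 2) k) *ᵥ v = 0 := by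
      refine hirr k (RingHom.id k) _ fun σ _ => ?_
      obtain ⟨c, hc⟩ := hv σ
      refine ⟨c, ?_⟩
      rw [show (ρ σ).map (RingHom.id k) = ρ σ from Matrix.ext fun i j => rfl, ← Matrix.mulVec_smul,
        ← hc, Engine.conjRep_apply, Matrix.mulVec_mulVec, Matrix.mulVec_mulVec]
      congr 1
      rw [← mul_assoc, ← mul_assoc, ← Units.val_mul, inv_mul_cancel, Units.val_one, one_mul]
    have h' := congrArg ((g₁ : Matrix (Fin 2) (Fin 2) k) *ᵥ ·) h
    simpa only [Matrix.mulVec_mulVec, ← Units.val_mul, mul_inv_cancel, Units.val_one,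
      Matrix.one_mulVec, Matrix.mulVec_zero] using h'
  set N := Engine.conjRep g₁ ρ
  have hγ : N complexConjugation = !![1, 0; 0, -1] := hg₁
  obtain ⟨r, hr⟩ : ∃ r, N r 1 0 ≠ 0 := by
    by_contra h
    push Not at h
    have := hirr₁ ![1, 0] fun σ => ⟨N σ 0 0, funext fun i => by
      fin_cases i <;> simp [Matrix.mulVec, dotProduct, Fin.sum_univ_two, h σ]⟩
    simpa using congrFun this 0
  obtain ⟨s, hs⟩ : ∃ s, N s 0 1 ≠ 0 := by
    by_contra h
    push Not at h
    have := hirr₁ ![0, 1] fun σ => ⟨N σ 1 1, funext fun i => by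
      fin_cases i <;> simp [Matrix.mulVec, dotProduct, Fin.sum_univ_two, h σ]⟩
    simpa using congrFun this 1
  set q := N r 1 0
  let g₂ : GL (Fin 2) k := ⟨!![q, 0; 0, 1], !![q⁻¹, 0; 0, 1],
    by rw [Matrix.mul_fin_two]; simp [Matrix.one_fin_two, hr],
    by rw [Matrix.mul_fin_two]; simp [Matrix.one_fin_two, hr]⟩
  have hval : ∀ h, Engine.conjRep (g₂ * g₁) ρ h =
      !![N h 0 0, q * N h 0 1; q⁻¹ * N h 1 0, N h 1 1] := fun h => by
    rw [← Engine.conjRep_conjRep, Engine.conjRep_apply]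
    show !![q, 0; 0, 1] * N h * !![q⁻¹, 0; 0, 1] = _
    rw [Matrix.eta_fin_two (N h), Matrix.mul_fin_two, Matrix.mul_fin_two]
    ext i j
    fin_cases i <;> fin_cases j <;> simp <;> field_simp
  set g := g₂ * g₁
  refine ⟨⟨Engine.conjRep g ρ, ?_, fun n σ a ha => ?_, fun K _ ι v hv => ?_, ?_, r, s, ?_, ?_⟩,
    g, rfl⟩
  · obtain ⟨L, hL, h⟩ := hfin
    exact ⟨L, hL, fun σ hσ => by
      rw [Engine.conjRep_apply, h σ hσ, mul_one, ← Units.val_mul, mul_inv_cancel, Units.val_one]⟩
  · rw [Engine.det_conjRep]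
    exact hdet n σ a ha
  · have hA : ((g⁻¹ : GL (Fin 2) k) : Matrix (Fin 2) (Fin 2) k).map ι *
        (g : Matrix (Fin 2) (Fin 2) k).map ι = 1 := by
      rw [← Matrix.map_mul, ← Units.val_mul, inv_mul_cancel, Units.val_one,
        Matrix.map_one _ ι.map_zero ι.map_one]
    have h := hirr K ι (((g⁻¹ : GL (Fin 2) k) : Matrix (Fin 2) (Fin 2) k).map ι *ᵥ v) fun σ hσ => by
      obtain ⟨c, hc⟩ := hv σ hσ
      refine ⟨c, ?_⟩
      rw [← Matrix.mulVec_smul, ← hc, Engine.conjRep_apply, Matrix.mulVec_mulVec,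
        Matrix.mulVec_mulVec, Matrix.map_mul, Matrix.map_mul, ← mul_assoc, ← mul_assoc, hA, one_mul]
    have h' := congrArg ((g : Matrix (Fin 2) (Fin 2) k).map ι *ᵥ ·) h
    simpa only [Matrix.mulVec_mulVec, mul_eq_one_comm.mp hA, Matrix.one_mulVec,
      Matrix.mulVec_zero] using h'
  · rw [hval, hγ]; simp
  · rw [hval]; simp [q, inv_mul_cancel₀ hr]
  · rw [hval]; simp [hr, hs]

/-- Irreducibility on a subgroup is invariant under conjugation. -/
theorem absIrreducibleOn_conjRep {k : Type} [Field k] (g : GL (Fin 2) k) {ρ : MatRep k}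
    {G : Subgroup GalQ} (h : AbsIrreducibleOn ρ G) :
    AbsIrreducibleOn (Engine.conjRep g ρ) G := fun K _ ι v hv => by
  have hA : ((g⁻¹ : GL (Fin 2) k) : Matrix (Fin 2) (Fin 2) k).map ι *
      (g : Matrix (Fin 2) (Fin 2) k).map ι = 1 := by
    rw [← Matrix.map_mul, ← Units.val_mul, inv_mul_cancel, Units.val_one,
      Matrix.map_one _ ι.map_zero ι.map_one]
  have h1 := h K ι (((g⁻¹ : GL (Fin 2) k) : Matrix (Fin 2) (Fin 2) k).map ι *ᵥ v) fun σ hσ => by
    obtain ⟨c, hc⟩ := hv σ hσ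
    refine ⟨c, ?_⟩
    rw [← Matrix.mulVec_smul, ← hc, Engine.conjRep_apply, Matrix.mulVec_mulVec,
      Matrix.mulVec_mulVec, Matrix.map_mul, Matrix.map_mul, ← mul_assoc, ← mul_assoc, hA, one_mul]
  have h' := congrArg ((g : Matrix (Fin 2) (Fin 2) k).map ι *ᵥ ·) h1
  simpa only [Matrix.mulVec_mulVec, mul_eq_one_comm.mp hA, Matrix.one_mulVec,
    Matrix.mulVec_zero] using h'

theorem unramifiedAt_conjRep_iff {C : Type} [CommRing C] (g : GL (Fin 2) C) (ρ : MatRep C) (q : ℕ) :
    UnramifiedAt (Engine.conjRep g ρ) q ↔ UnramifiedAt ρ q := by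
  refine forall_congr' fun P => imp_congr_right fun _ => forall₂_congr fun σ _ => ?_
  rw [Engine.conjRep_apply, Units.mul_inv_eq_iff_eq_mul, one_mul]
  exact ⟨fun h => (Units.mul_right_inj g).mp (h.trans (mul_one _).symm),
    fun h => by rw [h, mul_one]⟩

/-- The data of the residual representation of a curve used by level lowering. -/
structure CurveResidual (p : ℕ) [Fact p.Prime] (W : WeierstrassCurve ℤ) (k : Type) [Field k] where
  R : ResidualRep p k
  irr_index_two : ∀ G : Subgroup AbsGal, G.index = 2 → AbsIrreducibleOn R.rep G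
  split : ∀ σ, ∃ α β : k, α + β = (R.rep σ).trace ∧ α * β = (R.rep σ).det
  trace_good : ∀ ℓ, ℓ.Prime → W.IsGoodPrimeFor ℓ → ℓ ≠ p → ∀ P : ValuationSubring Qbar,
    P.LiesOverPrime ℓ → ∀ φ, P.IsFrobeniusAt φ ℓ → (R.rep φ).trace = (W.apOfModel ℓ : k)
  unr : ∀ q, UnramifiedAt R.rep q ↔
    WeierstrassCurve.Affine.Point.GaloisRepUnramifiedAt (K := Qbar) ℚ
      (W.map (Int.castRingHom ℚ)) p q
  three : p = 3 → ∀ S : Finset ℕ, ∃ t, t.Prime ∧ t ∉ S ∧ t % 3 = 2 ∧
      ∀ P : ValuationSubring Qbar, P.LiesOverPrime t → ∀ φ, P.IsFrobeniusAt φ t →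
        (R.rep φ).trace ≠ 0

/-- The residual representation of a semistable curve over an extension of the field with `p²`
elements. -/
theorem exists_curveResidual {p : ℕ} [Fact p.Prime] (hp2 : p ≠ 2) (W : WeierstrassCurve ℤ)
    (hΔ : W.Δ ≠ 0) (hW : W.IsSemistableModel) (hirr : W.ModRepIsIrreducible p) {k : Type} [Field k]
    [CharP k p] (ι : ResidueField (Start.Coeff p) →+* k) : Nonempty (CurveResidual p W k) := by
  set j : ZMod p →+* k := ZMod.castHom (dvd_refl p) k
  set ρ₀ := mapRep PadicInt.toZMod (ConductorMatch.tateRep p W hΔ) with hρ₀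
  set ρ := mapRep j ρ₀
  obtain ⟨b, hb⟩ := exists_torsion_basis p W hΔ
  obtain ⟨hidx, hthree⟩ := GaloisImage.tw_hypothesis hp2 W hΔ hW hirr ρ₀ b hb
  have hfin : ∃ L : IntermediateField ℚ Qbar, FiniteDimensional ℚ L ∧
      ∀ σ : GalQ, (∀ x ∈ L, σ x = x) → ρ σ = 1 := by
    obtain ⟨L, hL, h⟩ := GaloisImage.finite_level_matRep (p := p) hΔ
    refine ⟨L, hL, fun σ hσ => ?_⟩
    rw [Start.mapRep_eq, hb]
    change j.mapMatrix (LinearMap.toMatrix b b _) = 1
    rw [h σ hσ, LinearMap.toMatrix_one, map_one]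
  have hd : (ρ₀ complexConjugation).det = -1 := by
    rw [hρ₀, Start.mapRep_det, ConductorMatch.det_tateRep, GaloisAttach.cyc_complexConjugation,
      map_neg, map_one]
  obtain ⟨R, g, hR⟩ := exists_residualRep_conj (p := p) (k := k)
    (fun h => hp2 ((Nat.prime_dvd_prime_iff_eq Fact.out Nat.prime_two).mp
      ((CharP.cast_eq_zero_iff k p 2).mp (by exact_mod_cast h))))
    ρ hfin (Start.detCyclotomic_map _ (Start.detCyclotomic_map _ (detCyclotomic_tateRep p W hΔ)))
    (Start.absIrreducibleOn_map _ (absIrreducibleOn_tateRep p hp2 W hΔ hirr))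
    (by
      rw [Start.mapRep_trace j, Start.trace_eq_zero
        (by rw [← map_mul, complexConjugation_mul_self, map_one]) hd, map_zero])
    (by rw [Start.mapRep_det j, hd, map_neg, map_one])
  have htr : ∀ σ, (R.rep σ).trace = j (ρ₀ σ).trace := fun σ => by
    rw [hR, Engine.trace_conjRep]
    exact Start.mapRep_trace j σ
  refine ⟨⟨R, fun G hG => ?_, fun σ => ?_, fun ℓ hℓ hg hℓp P hP φ hφ => ?_, fun q => ?_,
    fun h3 S => ?_⟩⟩
  · rw [hR]
    exact absIrreducibleOn_conjRep g (Start.absIrreducibleOn_map _ (hidx G hG))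
  · obtain ⟨α, β, h1, h2⟩ := Start.exists_add_eq_mul_eq p (Start.card_residue p) (ρ₀ σ).trace
      (ρ₀ σ).det
    have he : ι.comp (ZMod.castHom (dvd_refl p) (ResidueField (Start.Coeff p))) = j :=
      Subsingleton.elim _ _
    refine ⟨ι α, ι β, ?_, ?_⟩
    · rw [← map_add, h1, htr, ← he, RingHom.comp_apply]
    · rw [← map_mul, h2, hR, Engine.det_conjRep,
        show (ρ σ).det = j (ρ₀ σ).det from Start.mapRep_det j σ, ← he, RingHom.comp_apply]
  · rw [htr, hρ₀, Start.mapRep_trace,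
      ConductorMatch.trace_tateRep_frobenius W hΔ hℓ hg hℓp hP hφ, map_intCast, map_intCast]
  · rw [hR, unramifiedAt_conjRep_iff, Start.unramifiedAt_map_iff _ j.injective,
      galoisRepUnramifiedAt_iff p W hΔ]
  · obtain ⟨t, ht, htS, ht2, h⟩ := hthree h3 S
    exact ⟨t, ht, htS, ht2, fun P hP φ hφ h0 => h P hP φ hφ
      (j.injective (by rw [← htr, h0, map_zero]))⟩

end FLTAgent.LevelLowering
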