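import Fermat.Agent.LevelLowering.Core.Setup
import Fermat.Agent.LevelLowering.Outer.Residual
import Fermat.Agent.LevelLowering.Outer.Coefficients

/-!
# Level lowering from its core and Mazur's principle

`MazurPrincipleInput` removes unramified primes `q ≢ 1 (mod p)`; the remaining ones are removed by
building a minimal counterexample and applying `LowerCore` (`lowerUnramified_of_core`).
`residuallyModular_div_of_core` restates this for residual representations of semistable models;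
it is completed in `LevelLowering.Main`.
-/

set_option autoImplicit false

noncomputable section

open IsLocalRing WeierstrassCurve WeierstrassCurve.Affine.Point
open scoped WeierstrassCurve.Affine

namespace FLTAgent.LevelLowering

open FLTAgent.Density (GalQ Qbar)
open FLTAgent.DefRing FLTAgent.ModularityLifting

/-- Mazur's principle away from `p`. -/
def MazurPrincipleInput (p : ℕ) (W : WeierstrassCurve ℤ) : Prop :=
  ∀ M q : ℕ, Squarefree M → q.Prime → q ∣ M → q ≠ p → q % p ≠ 1 →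
    WeierstrassCurve.Affine.Point.GaloisRepUnramifiedAt (K := AlgebraicClosure ℚ) ℚ
      (W.map (Int.castRingHom ℚ)) p q →
    W.IsResiduallyModularOfLevel p M → W.IsResiduallyModularOfLevel p (M / q)

variable {p : ℕ} [Fact p.Prime] {W : WeierstrassCurve ℤ}

theorem exists_extraLevel (hp2 : p ≠ 2) (hΔ : W.Δ ≠ 0) (hW : W.IsSemistableModel)
    (hirr : W.ModRepIsIrreducible p) {M : ℕ} (hM : Squarefree M) :
    ∃ E, E ≠ 0 ∧ Squarefree (M * E) ∧ (p ≠ 3 → E = 1) ∧
      (p = 3 → E.Prime ∧ E % 3 = 2 ∧ ¬ E ∣ M ∧ E ≠ p ∧ W.IsGoodPrimeFor E ∧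
        ∀ (k : Type) [Field k] [CharP k p] (C : CurveResidual p W k) (P : ValuationSubring Qbar),
          P.LiesOverPrime E → ∀ φ, P.IsFrobeniusAt φ E → (C.R.rep φ).trace ≠ 0) := by
  by_cases h3 : p = 3
  swap
  · exact ⟨1, one_ne_zero, by rwa [mul_one], fun _ => rfl, fun h => absurd h h3⟩
  obtain ⟨C₀⟩ := exists_curveResidual hp2 W hΔ hW hirr (RingHom.id (ResidueField (Start.Coeff p)))
  obtain ⟨t, ht, htS, ht2, htr⟩ :=
    C₀.three h3 (insert p (M.primeFactors ∪ Start.badPrimes W))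
  simp only [Finset.mem_insert, Finset.mem_union, not_or] at htS
  obtain ⟨htp, htM, htbad⟩ := htS
  have htM' : ¬ t ∣ M := fun h => htM (Nat.mem_primeFactors.mpr ⟨ht, h, hM.ne_zero⟩)
  have hgood : W.IsGoodPrimeFor t := fun h => htbad ((Start.mem_badPrimes hΔ).mpr ⟨ht, h⟩)
  refine ⟨t, ht.ne_zero, (Nat.squarefree_mul ((Nat.Prime.coprime_iff_not_dvd ht).mpr htM').symm).mpr
    ⟨hM, ht.squarefree⟩, fun h => absurd h3 h, fun _ => ⟨ht, ht2, htM', htp, hgood, ?_⟩⟩
  intro k _ _ C P hP φ hφ h0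
  have h1 := htr P hP φ hφ
  rw [C₀.trace_good t ht hgood htp P hP φ hφ] at h1
  rw [C.trace_good t ht hgood htp P hP φ hφ] at h0
  refine h1 ?_
  have hk := (CharP.intCast_eq_zero_iff k p _).mp h0
  exact (CharP.intCast_eq_zero_iff _ p _).mpr hk

/-- **Removing a residually unramified prime**, from the core and Mazur's principle. -/
theorem lowerUnramified_of_core (p : ℕ) [Fact p.Prime] (hp2 : p ≠ 2) (W : WeierstrassCurve ℤ)
    (hΔ : W.Δ ≠ 0) (hW : W.IsSemistableModel) (hirr : W.ModRepIsIrreducible p)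
    (hcore : LowerCore p) (hmazur : MazurPrincipleInput p W) :
    ModularityLifting.Start.LowerUnramifiedInput p W := by
  classical
  intro M q hM hq hqp hqM hunr hres
  obtain ⟨E, hE0, hsqME, hE1, hE3⟩ := exists_extraLevel hp2 hΔ hW hirr hM
  have : NeZero M := ⟨hM.ne_zero⟩
  have : NeZero (M * E) := ⟨hsqME.ne_zero⟩
  have hex : ∃ m, m ∣ M ∧ W.IsResiduallyModularOfLevel p (m * E) :=
    ⟨M, dvd_rfl, Start.residual_of_dvd (dvd_mul_right M E) hres⟩
  set M₀ := Nat.find hex with hM₀def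
  obtain ⟨hM₀M, hM₀⟩ : M₀ ∣ M ∧ W.IsResiduallyModularOfLevel p (M₀ * E) := Nat.find_spec hex
  have hM₀0 : M₀ ≠ 0 := ne_zero_of_dvd_ne_zero hM.ne_zero hM₀M
  by_cases hqM₀ : q ∣ M₀
  · exfalso
    obtain ⟨O, _, _, _, _, _, _, _, ι, ζ, hζ⟩ := exists_rootCoefficients p M₀
    obtain ⟨C⟩ := exists_curveResidual hp2 W hΔ hW hirr ι
    have hmin : ∀ r, r.Prime → r ∣ M₀ → ¬ W.IsResiduallyModularOfLevel p (M₀ / r * E) :=
      fun r hr hrM h => Nat.find_min hex
        (Nat.div_lt_self (Nat.pos_of_ne_zero hM₀0) hr.one_lt)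
        ⟨(Nat.div_dvd_of_dvd hrM).trans hM₀M, h⟩
    have hsq₀ : Squarefree (M₀ * E) := hsqME.squarefree_of_dvd (mul_dvd_mul_right hM₀M E)
    refine hcore W O ⟨C.R, C.irr_index_two, C.split, C.trace_good, hΔ, M₀,
      hM.squarefree_of_dvd hM₀M, E, hE1, fun h3 => ?_, hM₀, hmin, fun r hr hrM hrp hru => ?_,
      q, hq, hqp, hqM₀, (C.unr q).mpr hunr, fun r hr hrM _ => ?_⟩
    · obtain ⟨hEp, hE2, hEM, hEp', hEg, htr⟩ := hE3 h3
      exact ⟨hEp, hE2, fun h => hEM (h.trans hM₀M),
        (C.unr E).mpr (Start.galoisRepUnramifiedAt_of_good hΔ hEp hEp' hEg),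
        fun P hP φ hφ => htr (ResidueField O) C P hP φ hφ⟩
    · by_contra hmod
      refine hmin r hr hrM ?_
      have h := hmazur (M₀ * E) r hsq₀ hr (dvd_mul_of_dvd_left hrM E) hrp hmod ((C.unr r).mp hru)
        hM₀
      rwa [Nat.mul_comm M₀ E, Nat.mul_div_assoc E hrM, Nat.mul_comm E] at h
    · have hle : (r - 1).factorization p ≤ M₀ := by
        have h1 := (Nat.le_of_dvd (Nat.pos_of_ne_zero hM₀0) hrM)
        rcases Nat.eq_zero_or_pos (r - 1) with h | h
        · simp [h]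
        · exact ((Nat.factorization_lt p h.ne').le).trans (by omega)
      exact ⟨_, hζ.pow (pow_pos (Fact.out : p.Prime).pos _)
        (show p ^ M₀ = p ^ (M₀ - (r - 1).factorization p) * p ^ (r - 1).factorization p by
          rw [← pow_add, Nat.sub_add_cancel hle])⟩
  · have hd : M₀ ∣ M / q := by
      have h : M₀ ∣ M / q * q := by rwa [Nat.div_mul_cancel hqM]
      exact (Nat.Coprime.dvd_of_dvd_mul_right
        ((Nat.Prime.coprime_iff_not_dvd hq).mpr hqM₀).symm h)
    have hdvdM : M / q * E ∣ M * E := mul_dvd_mul_right (Nat.div_dvd_of_dvd hqM) E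
    have : NeZero (M / q * E) := ⟨ne_zero_of_dvd_ne_zero hsqME.ne_zero hdvdM⟩
    have : NeZero (M₀ * E) := ⟨mul_ne_zero hM₀0 hE0⟩
    have h := Start.residual_of_dvd (mul_dvd_mul_right hd E) hM₀
    by_cases h3 : p = 3
    · obtain ⟨hEp, hE2, hEM, hEp', hEg, -⟩ := hE3 h3
      have h' := hmazur (M / q * E) E (hsqME.squarefree_of_dvd hdvdM) hEp (dvd_mul_left E _) hEp'
        (by subst h3; omega) (Start.galoisRepUnramifiedAt_of_good hΔ hEp hEp' hEg) h
      rwa [Nat.mul_div_cancel _ hEp.pos] at h'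
    · rwa [hE1 h3, mul_one] at h

/-- Lowering for residual representations, given the core and Mazur's principle. -/
theorem residuallyModular_div_of_core (p : ℕ) [Fact p.Prime] (hp2 : p ≠ 2)
    (W : WeierstrassCurve ℤ)
    (hΔ : W.Δ ≠ 0) (hW : W.IsSemistableModel)
    (hcard₁ : Nat.card (Submodule.torsionBy ℤ
      ((W.map (Int.castRingHom ℚ))⁄(AlgebraicClosure ℚ)).Point p) = p ^ 2)
    (hker : GaloisFactorsThroughFiniteLevel
      (WeierstrassCurve.Affine.Point.galoisRepModuleEnd (K := AlgebraicClosure ℚ) ℚ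
        (W.map (Int.castRingHom ℚ)) p))
    (hirr : W.ModRepIsIrreducible p) (hcore : LowerCore p) (hmazur : MazurPrincipleInput p W)
    (M q : ℕ) (hq : q.Prime) (hqp : q ≠ p) (hqM : q ∣ M) (hM : Squarefree M)
    (hunr : ((W.map (Int.castRingHom ℚ)).residualGaloisRepOf p hcard₁ hker).IsUnramifiedAt q)
    (hres : W.IsResiduallyModularOfLevel p M) :
    W.IsResiduallyModularOfLevel p (M / q) :=
  lowerUnramified_of_core p hp2 W hΔ hW hirr hcore hmazur M q hM hq hqp hqM
    (fun A hA σ hσ z => LinearMap.congr_fun (hunr A hA σ hσ) z) hres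

end FLTAgent.LevelLowering
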