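import Fermat.Agent.LevelRaising.VarChange
import Fermat.Agent.ECTorsion.GlobalTrace
import Fermat.Agent.GaloisAttach.Main
import Fermat.Agent.GaloisAttach.Supplied
import Fermat.Agent.GaloisImage.Det
import Fermat.Agent.Density.Chebotarev

/-!
# Residual modularity from congruences at almost all primes, and change of the integral model

`residual_of_congr_almostAll` upgrades congruences outside a finite set to residual modularity;
`residual_of_model` moves residual modularity between integral models of a curve.  Used for Frey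
packages and in Mazur's principle.
-/

set_option autoImplicit false

noncomputable section

open WeierstrassCurve WeierstrassCurve.Affine WeierstrassCurve.Affine.Point
open scoped WeierstrassCurve.Affine

namespace FLTAgent.LevelLowering

open FLTAgent.Density (GalQ Qbar)

/-- The trace on the `p`-torsion does not depend on the integral model. -/
theorem galoisTrace_eq_of_isIntegralModelOf {E : WeierstrassCurve ℚ} [E.IsElliptic]
    {W : WeierstrassCurve ℤ} (hW : W.IsIntegralModelOf E) {p : ℕ} [Fact p.Prime]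
    (σ : AlgebraicClosure ℚ ≃ₐ[ℚ] AlgebraicClosure ℚ) :
    galoisTrace ℚ (W.map (Int.castRingHom ℚ)).toAffine p σ = galoisTrace ℚ E.toAffine p σ := by
  obtain ⟨-, e, hequiv⟩ := LevelRaising.exists_torsion_equiv_of_isIntegralModelOf hW (p := p)
  have hconj : galoisRepModuleEnd ℚ E.toAffine p σ =
      e.conj (galoisRepModuleEnd ℚ (W.map (Int.castRingHom ℚ)).toAffine p σ) := by
    refine LinearMap.ext fun z => ?_
    obtain ⟨z, rfl⟩ := e.surjective z
    rw [LinearEquiv.conj_apply_apply, LinearEquiv.symm_apply_apply, galoisRepModuleEnd_apply,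
      galoisRepModuleEnd_apply]
    exact (hequiv σ z).symm
  rw [galoisTrace_def, galoisTrace_def, hconj, LinearMap.trace_conj']

variable {p : ℕ} [Fact p.Prime]

/-- Congruences at almost all primes give residual modularity. -/
theorem residual_of_congr_almostAll {W : WeierstrassCurve ℤ} (hΔ : W.Δ ≠ 0) {N : ℕ} [NeZero N]
    {f : CuspForm (CongruenceSubgroup.Gamma0 N) 2} (hf : f.IsNormalizedEigenform)
    {𝔪 : Ideal (integralClosure ℤ ℂ)} (hmax : 𝔪.IsMaximal) (hpm : (p : integralClosure ℤ ℂ) ∈ 𝔪)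
    (S : Finset ℕ)
    (h : ∀ ℓ : ℕ, ℓ.Prime → ℓ ∉ S → W.IsGoodPrimeFor ℓ → ¬ ℓ ∣ N → ℓ ≠ p →
      ∃ a : integralClosure ℤ ℂ, (a : ℂ) = ModularFormClass.qCoeff f ℓ ∧
        a - ((W.apOfModel ℓ : ℤ) : integralClosure ℤ ℂ) ∈ 𝔪) :
    W.IsResiduallyModularOfLevel p N := by
  classical
  have hp : p.Prime := Fact.out
  have := hmax
  let := Ideal.Quotient.field 𝔪
  have : CharP (integralClosure ℤ ℂ ⧸ 𝔪) p := (CharP.charP_iff_prime_eq_zero hp).mpr (by
    rw [← map_natCast (Ideal.Quotient.mk 𝔪), Ideal.Quotient.eq_zero_iff_mem]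
    exact hpm)
  obtain ⟨R⟩ := GaloisAttach.exists_residualMatrixRep_quotient hp
    (GaloisAttach.jacobianInputs N hp) GaloisAttach.frobeniusDivisions hf 𝔪 hpm
  obtain ⟨b⟩ := GaloisImage.exists_basis (W := W) (p := p) hΔ
  set j : ZMod p →+* integralClosure ℤ ℂ ⧸ 𝔪 := ZMod.castHom (dvd_refl p) _
  let ρ : GalQ →* Matrix (Fin 2) (Fin 2) (integralClosure ℤ ℂ ⧸ 𝔪) :=
    j.mapMatrix.toMonoidHom.comp (GaloisImage.matRep W p b)
  have hρtr : ∀ σ, (ρ σ).trace =
      j (galoisTrace ℚ (W.map (Int.castRingHom ℚ)).toAffine p σ) := fun σ => by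
    rw [galoisTrace_def, LinearMap.trace_eq_matrix_trace (ZMod p) b]
    exact (AddMonoidHom.map_trace j.toAddMonoidHom _).symm
  have ha : ∀ {ℓ : ℕ}, ℓ.Prime → W.IsGoodPrimeFor ℓ → ℓ ≠ p → ∀ P : ValuationSubring Qbar,
      P.LiesOverPrime ℓ → ∀ φ, P.IsFrobeniusAt φ ℓ →
        (ρ φ).trace = (W.apOfModel ℓ : integralClosure ℤ ℂ ⧸ 𝔪) := fun hℓ hg hℓp P hP φ hφ => by
    rw [hρtr, ECTorsion.galoisTrace_eq_apOfModel hℓ hg hℓp hP hφ, map_intCast]
  let π : GalQ →* ((Matrix (Fin 2) (Fin 2) (integralClosure ℤ ℂ ⧸ 𝔪)) ×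
      Matrix (Fin 2) (Fin 2) (integralClosure ℤ ℂ ⧸ 𝔪))ˣ := (R.M.prod ρ).toHomUnits
  have hπ : GaloisFactorsThroughFiniteLevel π := by
    obtain ⟨L₁, hL₁, h₁⟩ := R.finite_level
    obtain ⟨L₂, hL₂, h₂⟩ := GaloisImage.finite_level_matRep (p := p) hΔ
    refine ⟨L₁ ⊔ L₂, IntermediateField.finiteDimensional_sup _ _, fun τ hτ => Units.ext ?_⟩
    show (R.M τ, ρ τ) = 1
    have e : ρ τ = 1 := by
      show j.mapMatrix (LinearMap.toMatrix b b _) = 1
      rw [h₂ τ fun x hx => hτ x (le_sup_right (α := IntermediateField ℚ Qbar) hx),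
        LinearMap.toMatrix_one, map_one]
    rw [e, h₁ τ fun x hx => hτ x (le_sup_left (α := IntermediateField ℚ Qbar) hx)]
    rfl
  have hall : ∀ σ, (R.M σ).trace = (ρ σ).trace := by
    intro σ
    obtain ⟨t, ht, htS, A, hA, -, φ, hφ, he⟩ := (Density.chebotarev π hπ σ
      (insert p (S ∪ N.primeFactors ∪ W.Δ.natAbs.primeFactors))).nonempty
    simp only [Finset.mem_insert, Finset.mem_union, not_or] at htS
    obtain ⟨htp, ⟨htS, htN⟩, htΔ⟩ := htS
    have htN' : ¬ t ∣ N := fun h => htN (Nat.mem_primeFactors.mpr ⟨ht, h, NeZero.ne N⟩)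
    have hgood : W.IsGoodPrimeFor t := fun h => htΔ (Nat.mem_primeFactors.mpr
      ⟨ht, Int.natCast_dvd.mp h, Int.natAbs_ne_zero.mpr hΔ⟩)
    have he' : (R.M φ, ρ φ) = (R.M σ, ρ σ) := congrArg Units.val he
    obtain ⟨e1, e2⟩ := Prod.mk.injEq .. ▸ he'
    obtain ⟨a, ha1, ha2⟩ := h t ht htS hgood htN' htp
    have htS' : t ∉ ((↑({p} : Finset ℕ)) : Set ℕ) := by simpa using htp
    rw [← e1, ← e2, (R.frob t ht htN' htS' htp A hA φ hφ).1, ha ht hgood htp A hA φ hφ,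
      RingHom.comp_apply, ← map_intCast (Ideal.Quotient.mk 𝔪), Ideal.Quotient.eq]
    rwa [show GaloisAttach.eigenCharInt _ hf (CuspForm.heckeAlgebra.T ht htN' htS') = a from
      Subtype.ext ((GaloisAttach.coe_eigenCharInt_T hf ht htN' htS').trans ha1.symm)]
  refine ⟨f, 𝔪, hf, hmax, hpm, fun ℓ hℓ hg hℓN hℓp => ?_⟩
  have hℓS : ℓ ∉ ((↑({p} : Finset ℕ)) : Set ℕ) := by simpa using hℓp
  refine ⟨GaloisAttach.eigenCharInt _ hf (CuspForm.heckeAlgebra.T hℓ hℓN hℓS),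
    GaloisAttach.coe_eigenCharInt_T hf hℓ hℓN hℓS, ?_⟩
  obtain ⟨P, hP⟩ := Density.exists_liesOverPrime hℓ
  obtain ⟨φ, hφ⟩ := Density.exists_isFrobeniusAt P hℓ hP
  rw [← Ideal.Quotient.eq, map_intCast, ← ha hℓ hg hℓp P hP φ hφ, ← hall,
    (R.frob ℓ hℓ hℓN hℓS hℓp P hP φ hφ).1]
  rfl

/-- Residual modularity passes from one integral model to another. -/
theorem residual_of_model {E : WeierstrassCurve ℚ} [E.IsElliptic] {W W₀ : WeierstrassCurve ℤ}
    (hW : W.IsIntegralModelOf E) (hW₀ : W₀.IsIntegralModelOf E) (hΔ₀ : W₀.Δ ≠ 0) {N : ℕ} [NeZero N]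
    (hΔ : W.Δ ≠ 0) (h : W.IsResiduallyModularOfLevel p N) : W₀.IsResiduallyModularOfLevel p N := by
  obtain ⟨f, 𝔪, hf, hmax, hpm, hc⟩ := h
  refine residual_of_congr_almostAll hΔ₀ hf hmax hpm W.Δ.natAbs.primeFactors
    fun ℓ hℓ hℓS hg₀ hℓN hℓp => ?_
  have hg : W.IsGoodPrimeFor ℓ := fun h => hℓS (Nat.mem_primeFactors.mpr
    ⟨hℓ, Int.natCast_dvd.mp h, Int.natAbs_ne_zero.mpr hΔ⟩)
  obtain ⟨a, ha, ha'⟩ := hc ℓ hℓ hg hℓN hℓp
  obtain ⟨P, hP⟩ := Density.exists_liesOverPrime hℓ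
  obtain ⟨φ, hφ⟩ := Density.exists_isFrobeniusAt P hℓ hP
  have e := ((ECTorsion.galoisTrace_eq_apOfModel (p := p) hℓ hg hℓp hP hφ).symm.trans
    (galoisTrace_eq_of_isIntegralModelOf hW φ)).trans
    ((galoisTrace_eq_of_isIntegralModelOf hW₀ φ).symm.trans
      (ECTorsion.galoisTrace_eq_apOfModel hℓ hg₀ hℓp hP hφ))
  obtain ⟨c, hc'⟩ := (ZMod.intCast_eq_intCast_iff_dvd_sub _ _ p).mp e
  refine ⟨a, ha, ?_⟩
  rw [eq_add_of_sub_eq hc', Int.cast_add, Int.cast_mul, Int.cast_natCast, sub_add_eq_sub_sub,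
    sub_right_comm]
  exact sub_mem ha' (Ideal.mul_mem_right _ _ hpm)

end FLTAgent.LevelLowering
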