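import Fermat.Agent.LevelLowering.Outer.Main
import Fermat.Agent.LevelLowering.Outer.Transfer
import Fermat.Agent.Endgame.FreyModel
import Fermat.Prelude.Def_FLTPrelim_Ramification

/-!
# Level lowering for Frey packages from the core and Mazur's principle

`freyPackage_exists_lower_of_core` passes between the conductor level of a Frey curve and residual
modularity of its integral model, and applies the lowering of the level at a residually unramified
prime.
`LevelLowering.Main` supplies the core and Mazur's principle.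
-/

set_option autoImplicit false

noncomputable section

open WeierstrassCurve WeierstrassCurve.Affine WeierstrassCurve.Affine.Point

namespace FLTAgent.LevelLowering

/-- Lowering for Frey packages, given the core and Mazur's principle. -/
theorem freyPackage_exists_lower_of_core (P : FreyPackage) [Fact P.p.Prime] {N q : ℕ}
    (hcond : P.IsConductorLevel N) (hq : q.Prime) (hqp : q ≠ P.p) (hqN : q ∣ N)
    (hirr : GaloisRepIsIrreducible (K := AlgebraicClosure ℚ) ℚ P.freyCurve P.p)
    (hmod : P.ModularRepOfLevel N) (hunr : P.GaloisRepUnramifiedAt q) (hcore : LowerCore P.p)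
    (hmazur : MazurPrincipleInput P.p P.freyCurveInt) :
    ∃ M : ℕ, M ∣ N ∧ ¬ q ∣ M ∧ P.ModularRepOfLevel M := by
  have := GaloisAttach.freyCurve_isElliptic P
  have : NeZero N := ⟨hcond.pos.ne'⟩
  have hp2 : P.p ≠ 2 := by have := P.hp5; omega
  have hΔ₀ := Endgame.freyCurveInt_Δ_ne_zero P
  have hmodel := Endgame.freyCurveInt_isIntegralModelOf P
  have hirr₀ : P.freyCurveInt.ModRepIsIrreducible P.p :=
    (LevelRaising.modRepIsIrreducible_of_isIntegralModelOf hmodel hirr).1
  have hunr₀ : WeierstrassCurve.Affine.Point.GaloisRepUnramifiedAt (K := AlgebraicClosure ℚ) ℚ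
      (P.freyCurveInt.map (Int.castRingHom ℚ)) P.p q := by
    rw [Endgame.freyCurveInt_map]
    exact hunr
  obtain ⟨f, W, 𝔪, hf, hW, hmax, hpm, hc⟩ := hmod
  have hΔ : W.Δ ≠ 0 := (LevelRaising.modRepIsIrreducible_of_isIntegralModelOf hW hirr).2
  have hres : P.freyCurveInt.IsResiduallyModularOfLevel P.p N :=
    residual_of_model hW hmodel hΔ₀ hΔ ⟨f, 𝔪, hf, hmax, hpm, hc⟩
  obtain ⟨g, 𝔫, hg, hmax', hpm', hc'⟩ := lowerUnramified_of_core P.p hp2 P.freyCurveInt hΔ₀
    (Endgame.freyCurveInt_isSemistableModel P) hirr₀ hcore hmazur N q hcond.squarefree hq hqp hqN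
    hunr₀ hres
  refine ⟨N / q, Nat.div_dvd_of_dvd hqN, fun h => ?_, g, P.freyCurveInt, 𝔫, hg, hmodel, hmax',
    hpm', hc'⟩
  exact hcond.sq_not_dvd hq (by
    rw [pow_two]
    exact Nat.mul_dvd_of_dvd_div hqN h)

end FLTAgent.LevelLowering
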